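/-
P-ORD (S33), block B1-PT (helper19): the statement [CUSP-INT].

`j(q^p) / j(q)^p` is integral over `ℤ[1 / j]` : there is `P ∈ ℤ[X][Y]`, monic in `Y`, with
`P(1 / j, j(q^p) / j^p) = 0` in `ℚ((q))`.

(Use: `m = j_p / j^p` lies in the cuspidal chart `B̄(1 / j)` of `X₀(M p)`, is `≡ 1` on the component
`C_∞` of the special fibre and vanishes at the cusp `0`; hence the cusp `0` specialises to `C_0` and
the cusp `∞` to `C_∞` : the anchors of (PT), `Fermat.Agent.H19.ORD.nodalLift_of_base`.)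

PROOF SKETCH.  `Fermat.Agent.H27.HeckeDataOver p ℂ ζ` (exists: `hasHeckeData_complex`) gives `Φ`
monic of degree `p + 1` in `Y` over `ℤ[X]` with
`Φ(j(t^p), Y) = (Y - j(t^{p²})) ∏_{b < p} (Y - j(ζ^b t))` in `ℂ((t))[Y]`.  With `X = j(t^p)`
(`t`-order `-p`) every root `r` has `t`-order `≥ -p²`, so `r X⁻ᵖ ∈ ℂ[[t]]`; hence the
coefficient `c_i(X) X^(-p (p + 1 - i))` of `Y^i` in `∏ (Y - r X⁻ᵖ)` (= `Polynomial.scaleRoots`)
has `t`-order `≥ 0`.  For `c ∈ ℤ[X]`, `c ≠ 0` : `ord_t c(X) = -p deg c` (characteristic `0`), so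
`deg c_i ≤ p (p + 1 - i)` and `c_i(X) X^(-p (p + 1 - i)) ∈ ℤ[X⁻¹]`.  So `j(t^{p²}) / j(t^p)^p` is
a root of a monic polynomial over `ℤ[1 / j(t^p)]`; undo `t ↦ t^p` (`qExpand_injective`) and descend
from `ℂ` to `ℚ` (`coeffMap` is injective).
-/
import Fermat.Agent.H27.Igusa.Defs

set_option autoImplicit false

noncomputable section

open ModularCurve

namespace Fermat.Agent.H19.ORD

/-- **[CUSP-INT]** `j(q^p) / j(q)^p` is integral over `ℤ[1 / j]`. -/
def CuspIntStatement : Prop :=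
  ∀ (p : ℕ) [NeZero p], p.Prime →
    ∃ P : Polynomial (Polynomial ℤ), P.Monic ∧
      (P.map (Fermat.Agent.H27.evalAt (jq⁻¹))).eval (qExpand ℚ p jq * (jq⁻¹) ^ p) = 0

end Fermat.Agent.H19.ORD

end
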