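/-
P-ORD (S33), block B1-PT (helper19): the functions `u = 1 / j`, `m = j_p / j ^ p` of `X₀(M p)`
(`j_p = j(q^p) = W j`), their `q`-expansions, Gauss reductions and the action of `W`.

* `nmW_j`, `nmW_jp` : `W j = j_p`, `W j_p = j`;
* `nm_gauss_frac` : `y b = a` with `a, b ∈ A((q))`, `b` with nonzero reduction : `y ∈ V_∞` and
  `red y = red a / red b`;
* `nmMm_red` : `m ∈ V_∞` and `red_∞ m = 1` (Frobenius: `j(q^p) ≡ j(q)^p`);
* `nmFoo_red0` : `f = 1 - m ^ p + u ^ (p² - 1) ∈ V_0` and `red_0 f = 1`.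
-/
import Fermat.Agent.H84.ORD.NodalModelAPI
import Fermat.Agent.H62.ORD.FullCChar

set_option autoImplicit false
set_option linter.unusedSectionVars false
set_option linter.style.haveILetI false

noncomputable section

open AlgebraicCurve ModularCurve

namespace Fermat.Agent.H19.ORD

open Fermat.Agent.H72.FF Fermat.Agent.H18.ORD Fermat.Agent.H66 Fermat.Agent.H84.ORD

/-! ### Characteristic of the residue field -/

theorem nmq_charP {L : Type*} [Field L] (A : ValuationSubring L) (p : ℕ) (hp : p.Prime)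
    (hA : A.LiesOverPrime p) : CharP (IsLocalRing.ResidueField A) p := by
  rw [CharP.charP_iff_prime_eq_zero hp]
  have hnu : ((p : A)) ∈ IsLocalRing.maximalIdeal A := by
    have := hA
    rw [ValuationSubring.LiesOverPrime, ValuationSubring.mem_nonunits_iff_exists_mem_maximalIdeal]
      at this
    obtain ⟨h1, h2⟩ := this
    have he : (⟨(p : L), h1⟩ : A) = (p : A) := Subtype.ext (by simp)
    rw [← he]
    exact h2
  have := (IsLocalRing.residue_eq_zero_iff (p : A)).mpr hnu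
  rw [map_natCast] at this
  exact this

/-! ### The functions -/

section Fun

variable (M p : ℕ) [NeZero M] [NeZero p]

/-- `j_p = j(q^p)` -/
def nmJp : FLb (M * p) := Fermat.Agent.H23.jBarD (M * p) p (dvd_mul_left p M)

/-- `u = 1 / j` -/
def nmU : FLb (M * p) := (nmJ (M * p))⁻¹

/-- `m = j_p / j ^ p` -/
def nmMm : FLb (M * p) := nmJp M p * nmU M p ^ p

/-- `f = 1 - m ^ p + u ^ (p² - 1)` -/
def nmFoo : FLb (M * p) := 1 - nmMm M p ^ p + nmU M p ^ (p * p - 1)

theorem coe_nmJ (N : ℕ) [NeZero N] : ((nmJ N : FLb N) : LaurentSeries Qb) = jqModC Qb := by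
  show coeffEmb Qb (qExpand ℚ 1 jq) = _
  rw [qExpand_one_apply, coeffEmb, ← jqModC_rat, coeffMap_jqModC]

theorem coe_nmJp : ((nmJp M p : FLb (M * p)) : LaurentSeries Qb) =
    qExpand Qb p (jqModC Qb) := by
  show coeffEmb Qb (qExpand ℚ p jq) = _
  rw [coeffEmb, coeffMap_qExpand, ← jqModC_rat, coeffMap_jqModC]

theorem nmJ_ne_zero (N : ℕ) [NeZero N] : nmJ N ≠ 0 := by
  intro h
  have h1 := congrArg (fun x : FLb N => ((x : LaurentSeries Qb)).coeff (-1)) h
  simp only [coe_nmJ] at h1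
  rw [ModularCurve.coeff_jqModC_neg_one] at h1
  simp at h1

end Fun

section W

variable (M p : ℕ) [NeZero M] [NeZero p] (hcop : Nat.Coprime M p)

theorem nmW_j : nmW M p hcop (nmJ (M * p)) = nmJp M p := by
  obtain ⟨-, hα, -, -⟩ := nmW_spec M p hcop
  have h := hα (Fermat.Agent.H23.jBarD M 1 (one_dvd M))
  have e1 : heckeAlphaBar Qb M p (Fermat.Agent.H23.jBarD M 1 (one_dvd M)) = nmJ (M * p) := by
    apply Subtype.ext
    rw [coe_heckeAlphaBar]
    rfl
  have e2 : heckeBetaBar Qb M p (Fermat.Agent.H23.jBarD M 1 (one_dvd M)) = nmJp M p := by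
    apply Subtype.ext
    rw [coe_heckeBetaBar, coe_nmJp]
    show qExpand Qb p (coeffEmb Qb (qExpand ℚ 1 jq)) = _
    rw [qExpand_one_apply, coeffEmb, ← jqModC_rat, coeffMap_jqModC]
  rw [e1, e2] at h
  exact h

theorem nmW_jp : nmW M p hcop (nmJp M p) = nmJ (M * p) := by
  obtain ⟨-, -, -, hinv⟩ := nmW_spec M p hcop
  rw [← nmW_j M p hcop, hinv]

theorem nmW_invol (z : FLb (M * p)) : nmW M p hcop (nmW M p hcop z) = z :=
  (nmW_spec M p hcop).2.2.2 z

theorem nmW_u : nmW M p hcop (nmU M p) = (nmJp M p)⁻¹ := by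
  rw [nmU, map_inv₀, nmW_j]

theorem nmW_m : nmW M p hcop (nmMm M p) = nmJ (M * p) * ((nmJp M p)⁻¹) ^ p := by
  rw [nmMm, map_mul, map_pow, nmW_u, nmW_jp]

end W


section Gauss

variable (N : ℕ) (A : ValuationSubring Qb)

/-- a fraction `a / b` of integral series, `b` with nonzero reduction, lies in the Gauss ring,
with reduction `red a / red b` -/
theorem nm_gauss_frac (y : FLb N) (a b : LaurentSeries A) (hb : vRho A b ≠ 0)
    (h : (y : LaurentSeries Qb) * vIota A b = vIota A a) :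
    ∃ hy : y ∈ gaussOBar N A, gaussRedBar N A ⟨y, hy⟩ = vRho A a / vRho A b := by
  have hy : y ∈ gaussOBar N A := (mem_gaussOBar_iff N A y).mpr ⟨a, b, hb, h⟩
  refine ⟨hy, ?_⟩
  rw [gaussRedBar_apply]
  exact vGaussRedFun_eq A ⟨_, hy⟩ a b hb h

end Gauss


section Red

variable (M p : ℕ) [NeZero M] [NeZero p] (hcop : Nat.Coprime M p) (A : ValuationSubring Qb)

theorem nmJp_ne_zero : nmJp M p ≠ 0 := by
  intro h
  have h1 := congrArg (fun x : FLb (M * p) => ((x : LaurentSeries Qb)).coeff ((p : ℤ) * (-1))) h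
  simp only [coe_nmJp] at h1
  rw [qExpand_coeff_mul, ModularCurve.coeff_jqModC_neg_one] at h1
  simp at h1

theorem nm_vIota_J : vIota A (jqModC A) = jqModC Qb := by
  rw [vIota, coeffMap_jqModC]

theorem nm_vIota_Jp : vIota A (qExpand A p (jqModC A)) = qExpand Qb p (jqModC Qb) := by
  rw [vIota, coeffMap_qExpand, coeffMap_jqModC]

theorem nm_vRho_J : vRho A (jqModC A) = jqModC (kRes A) := by
  rw [vRho, coeffMap_jqModC]

theorem nm_jqModC_ne_zero (k : Type*) [Field k] : jqModC k ≠ 0 := by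
  intro h
  have h1 : (jqModC k).coeff (-1) = (0 : LaurentSeries k).coeff (-1) := by rw [h]
  rw [ModularCurve.coeff_jqModC_neg_one] at h1
  simp at h1

theorem nm_vRho_Jp (hp : p.Prime) (hA : A.LiesOverPrime p) :
    vRho A (qExpand A p (jqModC A)) = jqModC (kRes A) ^ p := by
  haveI : Fact p.Prime := ⟨hp⟩
  haveI : CharP (kRes A) p := nmq_charP A p hp hA
  rw [vRho, coeffMap_qExpand, coeffMap_jqModC]
  have h := Fermat.Agent.H62.ORD.qExpand_mul_jqModC_char p (k := kRes A) 1 p (mul_one p).symm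
  rw [h, qExpand_one_apply]

/-- `m ∈ V_∞`, with reduction `1`. -/
theorem nmMm_red (hp : p.Prime) (hA : A.LiesOverPrime p) :
    ∃ h : nmMm M p ∈ gaussOBar (M * p) A, gaussRedBar (M * p) A ⟨nmMm M p, h⟩ = 1 := by
  have hj : ((nmJ (M * p) : FLb (M * p)) : LaurentSeries Qb) ≠ 0 := by
    rw [coe_nmJ]
    exact nm_jqModC_ne_zero Qb
  have hb : vRho A (jqModC A ^ p) ≠ 0 := by
    rw [map_pow, nm_vRho_J]
    exact pow_ne_zero _ (nm_jqModC_ne_zero _)
  obtain ⟨h, hred⟩ := nm_gauss_frac (M * p) A (nmMm M p) (qExpand A p (jqModC A))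
    (jqModC A ^ p) hb (by
      rw [map_pow, nm_vIota_J, nm_vIota_Jp, ← coe_nmJp M p, ← coe_nmJ (M * p), nmMm, nmU]
      push_cast
      rw [inv_pow, mul_assoc, inv_mul_cancel₀ (pow_ne_zero _ hj), mul_one])
  refine ⟨h, ?_⟩
  rw [hred, map_pow, nm_vRho_J, nm_vRho_Jp p A hp hA]
  exact div_self (pow_ne_zero _ (nm_jqModC_ne_zero _))

end Red

section Red2

variable (M p : ℕ) [NeZero M] [NeZero p] (hcop : Nat.Coprime M p) (A : ValuationSubring Qb)

theorem nmW_foo : nmW M p hcop (nmFoo M p) =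
    1 - (nmJ (M * p) * ((nmJp M p)⁻¹) ^ p) ^ p + ((nmJp M p)⁻¹) ^ (p * p - 1) := by
  rw [nmFoo, map_add, map_sub, map_one, map_pow, map_pow, nmW_m, nmW_u]

/-- `m ∈ V_∞`, `red_∞ m = 1` (in `F_∞`). -/
theorem nmMm_redOo (hp : p.Prime) (hA : A.LiesOverPrime p) :
    ∃ h : nmMm M p ∈ gaussOBar (M * p) A, nmRedOo (M * p) A ⟨nmMm M p, h⟩ = 1 := by
  obtain ⟨h, hred⟩ := nmMm_red M p A hp hA
  refine ⟨h, ?_⟩
  apply Subtype.ext
  rw [coe_nmRedOo, hred]
  rfl

/-- `f = 1 - m ^ p + u ^ (p² - 1) ∈ V_0`, `red_0 f = 1`. -/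
theorem nmFoo_red0 (hp : p.Prime) (hA : A.LiesOverPrime p) :
    ∃ h : nmFoo M p ∈ nmV0 M p hcop A, nmRed0 M p hcop A ⟨nmFoo M p, h⟩ = 1 := by
  have hpp : p * p - 1 + 1 = p * p := Nat.sub_add_cancel (Nat.mul_pos hp.pos hp.pos)
  have hjp : ((nmJp M p : FLb (M * p)) : LaurentSeries Qb) ≠ 0 := by
    intro h
    exact nmJp_ne_zero M p (Subtype.ext h)
  have hX : jqModC (kRes A) ≠ 0 := nm_jqModC_ne_zero _
  have hb : vRho A (qExpand A p (jqModC A) ^ (p * p)) ≠ 0 := by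
    rw [map_pow, nm_vRho_Jp p A hp hA]
    exact pow_ne_zero _ (pow_ne_zero _ hX)
  obtain ⟨h, hred⟩ := nm_gauss_frac (M * p) A (nmW M p hcop (nmFoo M p))
    (qExpand A p (jqModC A) ^ (p * p) - jqModC A ^ p + qExpand A p (jqModC A))
    (qExpand A p (jqModC A) ^ (p * p)) hb (by
      rw [map_add, map_sub, map_pow, map_pow, nm_vIota_J, nm_vIota_Jp, ← coe_nmJp M p,
        ← coe_nmJ (M * p), nmW_foo]
      push_cast
      have e1 : ((nmJp M p : FLb (M * p)) : LaurentSeries Qb)⁻¹ ^ (p * p - 1) *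
          ((nmJp M p : FLb (M * p)) : LaurentSeries Qb) ^ (p * p) =
          ((nmJp M p : FLb (M * p)) : LaurentSeries Qb) := by
        rw [← hpp, pow_succ, hpp, ← mul_assoc, inv_pow,
          inv_mul_cancel₀ (pow_ne_zero _ hjp), one_mul]
      have e2 : (((nmJ (M * p) : FLb (M * p)) : LaurentSeries Qb) *
          ((nmJp M p : FLb (M * p)) : LaurentSeries Qb)⁻¹ ^ p) ^ p *
          ((nmJp M p : FLb (M * p)) : LaurentSeries Qb) ^ (p * p) =
          ((nmJ (M * p) : FLb (M * p)) : LaurentSeries Qb) ^ p := by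
        rw [mul_pow, ← pow_mul, mul_assoc, inv_pow,
          inv_mul_cancel₀ (pow_ne_zero _ hjp), mul_one]
      rw [add_mul, sub_mul, one_mul, e1, e2])
  have hmem : nmFoo M p ∈ nmV0 M p hcop A := (mem_nmV0_iff M p hcop A _).mpr h
  refine ⟨hmem, ?_⟩
  apply Subtype.ext
  rw [nmRed0_apply, coe_nmRedOo]
  show gaussRedBar (M * p) A ⟨nmW M p hcop (nmFoo M p), h⟩ = 1
  rw [hred, map_add, map_sub, map_pow, map_pow, nm_vRho_J, nm_vRho_Jp p A hp hA,
    sub_add_cancel]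
  exact div_self (pow_ne_zero _ (pow_ne_zero _ hX))

end Red2

end Fermat.Agent.H19.ORD

end
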