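/-
P-ORD (S33), block B1-PT (helper19): the fields `pt_oo`, `pt_zero` of
`Fermat.Agent.H18.ORD.NodalLift` are CONSEQUENCES of the lifting statement (LIFT) at ONE pair of
inertia-fixed base places `(P∞, P0)` over smooth points `(Q∞, Q0)` of the two components (in
practice: the cusps `∞` and `0`, which are fixed by the whole Galois group).

Proof (twin of `Fermat.Agent.H19.FF.ff_unrCoord_of_base`): for a smooth point `Q ≠ Q∞` of `C_∞`,
lift a glued pair `(x, y)` with a simple zero of `x` at `Q`; the lift `u` is inertia-fixed, has no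
pole on the disc of `Q`, and by the conservation law exactly one zero `P` on this disc, which is
simple; the inertia group preserves the disc (`NodalGalHyp.inertia_r`), hence fixes `P`.

* `NodalLiftAt G Poo P0 Qoo Q0` : the statement (LIFT) at the base places `(Poo, P0)`;
* `nodalPt_oo`, `nodalPt_zero` : (PT) on the two components;
* `nodalLift_of_base` : the full package `NodalLift G` from (LIFT) and one pair of base places.
-/
import Fermat.Agent.H69.ORD.NodalSys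

set_option autoImplicit false
set_option linter.unusedSectionVars false
set_option linter.style.haveILetI false

noncomputable section

open AlgebraicCurve ModularCurve

namespace Fermat.Agent.H19.ORD

open Fermat.Agent.H18.ORD Fermat.Agent.H72.FF Fermat.Agent.H27.ESD Fermat.Agent.H69.ORD

variable {N : ℕ} {A : ValuationSubring Qb} {Foo F0 : Type} [Field Foo] [Field F0]
  [Algebra (kRes A) Foo] [Algebra (kRes A) F0] {ι : Type}

/-- **(LIFT) at one pair of base places** : for `n` large, every glued pair in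
`L(C_∞, n Q∞) × L(C_0, n Q0)` is the reduction of an inertia-fixed element of
`V_∞ ∩ V_0 ∩ L(n P∞ + n P0)`. -/
def NodalLiftAt (G : NodalData N A Foo F0 ι) (Poo P0 : Place Qb (FLb N))
    (Qoo : Place (kRes A) Foo) (Q0 : Place (kRes A) F0) : Prop :=
  ∃ n₀ : ℕ, ∀ n : ℕ, n₀ ≤ n →
    ∀ x ∈ riemannRochSpace (Finsupp.single Qoo (n : ℤ)),
    ∀ y ∈ riemannRochSpace (Finsupp.single Q0 (n : ℤ)), IsGlued G x y →
      ∃ (u : FLb N) (h : u ∈ G.Voo) (h0 : u ∈ G.V0), IsUnrFn A N u ∧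
        u ∈ riemannRochSpace (Finsupp.single Poo (n : ℤ) + Finsupp.single P0 (n : ℤ)) ∧
        G.redOo ⟨u, h⟩ = x ∧ G.red0 ⟨u, h0⟩ = y

/-- the field `lift` of `NodalLift` is `NodalLiftAt` at every pair of base places -/
theorem nodalLiftAt_of_lift {G : NodalData N A Foo F0 ι} (hL : NodalLift G)
    (Poo P0 : Place Qb (FLb N)) (Qoo : Place (kRes A) Foo) (Q0 : Place (kRes A) F0)
    (hPoo : G.r Poo = NPt.oo Qoo) (hP0 : G.r P0 = NPt.zero Q0)
    (hPooI : IsUnrPlace A N Poo) (hP0I : IsUnrPlace A N P0) :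
    NodalLiftAt G Poo P0 Qoo Q0 :=
  hL.lift Poo P0 Qoo Q0 hPoo hP0 hPooI hP0I

/-- **(PT) on `C_∞`**, with an inertia-fixed coordinate: every smooth point `Q ≠ Q∞` of `C_∞` is
the specialisation of an inertia-fixed place `P`, the unique zero on the disc of `Q` of an
inertia-fixed function `u ∈ V_∞` whose reduction has a simple zero at `Q`. -/
theorem nodalPt_oo_coord {p : ℕ} [Finite ι] (G : NodalData N A Foo F0 ι)
    (H : NodalRvHyp p G)
    (hIr : ∀ σ ∈ A.inertiaSubgroupIn ℚ, ∀ P, G.r (galF N σ • P) = G.r P)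
    (hdiv : HasPrincipalDivisors Qb (FLb N)) {goo g0 : ℕ}
    (hkoo : RiemannPackage (kRes A) Foo goo) (hk0 : RiemannPackage (kRes A) F0 g0)
    (Poo P0 : Place Qb (FLb N)) (Qoo : Place (kRes A) Foo) (Q0 : Place (kRes A) F0)
    (hPoo : G.r Poo = NPt.oo Qoo) (hP0 : G.r P0 = NPt.zero Q0)
    (hL : NodalLiftAt G Poo P0 Qoo Q0)
    (Q : Place (kRes A) Foo) (hQ : Q ∉ Set.range G.nOo) (hQne : Q ≠ Qoo) :
    ∃ (P : Place Qb (FLb N)) (u : FLb N) (hu : u ∈ G.Voo), G.r P = NPt.oo Q ∧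
      IsUnrPlace A N P ∧ IsUnrFn A N u ∧ P.ord u = 1 ∧ Q.ord (G.redOo ⟨u, hu⟩) = 1 ∧
      (∀ P1, G.r P1 = NPt.oo Q → 0 ≤ P1.ord u) ∧
      (∀ P1, G.r P1 = NPt.oo Q → P1 ≠ P → P1.ord u = 0) := by
  classical
  have hQoo : Qoo ∉ Set.range G.nOo := H.r_oo Poo Qoo hPoo
  have hQ0 : Q0 ∉ Set.range G.n0 := H.r_zero P0 Q0 hP0
  obtain ⟨n₀, hn₀⟩ := hL
  obtain ⟨n₃, hn₃⟩ := sys_exists_glued_oo G H.n0_inj hkoo hk0 Qoo Q Q0 hQoo hQ0 hQne
  obtain ⟨x, hx, y, hy, hglue, hx0, hxQ⟩ := hn₃ (max n₀ n₃) (le_max_right _ _)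
  obtain ⟨u, hu, hu0, huI, huL, hredx, -⟩ := hn₀ (max n₀ n₃) (le_max_left _ _) x hx y hy hglue
  have C := H.compOo hdiv
  have hured0 : G.redOo ⟨u, hu⟩ ≠ 0 := by rw [hredx]; exact hx0
  have hsimple : Q.ord (G.redOo ⟨u, hu⟩) = 1 := by rw [hredx]; exact hxQ
  have hune : u ≠ 0 := nv_coe_ne_zero (u := (⟨u, hu⟩ : G.Voo)) hured0
  -- no pole on the disc
  have hnp : ∀ P1, G.r P1 = NPt.oo Q → 0 ≤ P1.ord u := by
    intro P1 hP1
    have h1 : P1 ≠ Poo := by
      rintro rfl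
      rw [hPoo] at hP1
      exact hQne (NPt.oo.inj hP1).symm
    have h2 : P1 ≠ P0 := by
      rintro rfl
      rw [hP0] at hP1
      cases hP1
    rcases (mem_riemannRochSpace_iff.mp huL) P1 with h | h
    · exact absurd h hune
    · rw [Finsupp.add_apply, Finsupp.single_apply, Finsupp.single_apply,
        if_neg (Ne.symm h1), if_neg (Ne.symm h2)] at h
      omega
  -- the zero in the disc
  obtain ⟨D, hD⟩ := C.hdiv u hune
  have hmap := C.cons ⟨u, hu⟩ hured0 D hD Q hQ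
  rw [hsimple] at hmap
  obtain ⟨P, hPQ, hP1⟩ := sys_exists_pos_of_mapDomain G.r D (NPt.oo Q)
    (fun a ha => by rw [hD]; exact hnp a ha) hmap
  rw [hD] at hP1
  obtain ⟨hPord, hPuniq⟩ := C.ord_eq_of_coord Q hQ P hPQ ⟨u, hu⟩ hP1 hsimple hnp
  -- the zero is fixed by the inertia group
  have hPI : IsUnrPlace A N P := by
    intro σ hσ
    by_contra hcon
    have hr : G.r (galF N σ • P) = NPt.oo Q := (hIr σ hσ P).trans hPQ
    have h0 := hPuniq (galF N σ • P) hr hcon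
    have h1 : (galF N σ • P).ord (galF N σ • u) = P.ord u :=
      SemilinearAut.ord_smul (galF N σ) P u
    rw [huI σ hσ] at h1
    have h2 : (galF N σ • P).ord u = 0 := h0
    have h3 : P.ord u = 1 := hPord
    omega
  exact ⟨P, u, hu, hPQ, hPI, huI, hPord, hsimple, hnp, hPuniq⟩

/-- **(PT) on `C_0`**, with an inertia-fixed coordinate. -/
theorem nodalPt_zero_coord {p : ℕ} [Finite ι] (G : NodalData N A Foo F0 ι)
    (H : NodalRvHyp p G)
    (hIr : ∀ σ ∈ A.inertiaSubgroupIn ℚ, ∀ P, G.r (galF N σ • P) = G.r P)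
    (hdiv : HasPrincipalDivisors Qb (FLb N)) {goo g0 : ℕ}
    (hkoo : RiemannPackage (kRes A) Foo goo) (hk0 : RiemannPackage (kRes A) F0 g0)
    (Poo P0 : Place Qb (FLb N)) (Qoo : Place (kRes A) Foo) (Q0 : Place (kRes A) F0)
    (hPoo : G.r Poo = NPt.oo Qoo) (hP0 : G.r P0 = NPt.zero Q0)
    (hL : NodalLiftAt G Poo P0 Qoo Q0)
    (Q : Place (kRes A) F0) (hQ : Q ∉ Set.range G.n0) (hQne : Q ≠ Q0) :
    ∃ (P : Place Qb (FLb N)) (u : FLb N) (hu : u ∈ G.V0), G.r P = NPt.zero Q ∧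
      IsUnrPlace A N P ∧ IsUnrFn A N u ∧ P.ord u = 1 ∧ Q.ord (G.red0 ⟨u, hu⟩) = 1 ∧
      (∀ P1, G.r P1 = NPt.zero Q → 0 ≤ P1.ord u) ∧
      (∀ P1, G.r P1 = NPt.zero Q → P1 ≠ P → P1.ord u = 0) := by
  classical
  have hQoo : Qoo ∉ Set.range G.nOo := H.r_oo Poo Qoo hPoo
  have hQ0 : Q0 ∉ Set.range G.n0 := H.r_zero P0 Q0 hP0
  obtain ⟨n₀, hn₀⟩ := hL
  obtain ⟨n₃, hn₃⟩ := sys_exists_glued_zero G H.nOo_inj hkoo hk0 Qoo Q0 Q hQoo hQ0 hQne
  obtain ⟨x, hx, y, hy, hglue, hy0, hyQ⟩ := hn₃ (max n₀ n₃) (le_max_right _ _)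
  obtain ⟨u, hu, hu0, huI, huL, -, hredy⟩ := hn₀ (max n₀ n₃) (le_max_left _ _) x hx y hy hglue
  have C := H.compZero hdiv
  have hured0 : G.red0 ⟨u, hu0⟩ ≠ 0 := by rw [hredy]; exact hy0
  have hsimple : Q.ord (G.red0 ⟨u, hu0⟩) = 1 := by rw [hredy]; exact hyQ
  have hune : u ≠ 0 := nv_coe_ne_zero (u := (⟨u, hu0⟩ : G.V0)) hured0
  -- no pole on the disc
  have hnp : ∀ P1, G.r P1 = NPt.zero Q → 0 ≤ P1.ord u := by
    intro P1 hP1
    have h1 : P1 ≠ Poo := by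
      rintro rfl
      rw [hPoo] at hP1
      cases hP1
    have h2 : P1 ≠ P0 := by
      rintro rfl
      rw [hP0] at hP1
      exact hQne (NPt.zero.inj hP1).symm
    rcases (mem_riemannRochSpace_iff.mp huL) P1 with h | h
    · exact absurd h hune
    · rw [Finsupp.add_apply, Finsupp.single_apply, Finsupp.single_apply,
        if_neg (Ne.symm h1), if_neg (Ne.symm h2)] at h
      omega
  -- the zero in the disc
  obtain ⟨D, hD⟩ := C.hdiv u hune
  have hmap := C.cons ⟨u, hu0⟩ hured0 D hD Q hQ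
  rw [hsimple] at hmap
  obtain ⟨P, hPQ, hP1⟩ := sys_exists_pos_of_mapDomain G.r D (NPt.zero Q)
    (fun a ha => by rw [hD]; exact hnp a ha) hmap
  rw [hD] at hP1
  obtain ⟨hPord, hPuniq⟩ := C.ord_eq_of_coord Q hQ P hPQ ⟨u, hu0⟩ hP1 hsimple hnp
  -- the zero is fixed by the inertia group
  have hPI : IsUnrPlace A N P := by
    intro σ hσ
    by_contra hcon
    have hr : G.r (galF N σ • P) = NPt.zero Q := (hIr σ hσ P).trans hPQ
    have h0 := hPuniq (galF N σ • P) hr hcon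
    have h1 : (galF N σ • P).ord (galF N σ • u) = P.ord u :=
      SemilinearAut.ord_smul (galF N σ) P u
    rw [huI σ hσ] at h1
    have h2 : (galF N σ • P).ord u = 0 := h0
    have h3 : P.ord u = 1 := hPord
    omega
  exact ⟨P, u, hu0, hPQ, hPI, huI, hPord, hsimple, hnp, hPuniq⟩

/-- **(PT) on `C_∞`** : the field `pt_oo` of `NodalLift G`. -/
theorem nodalPt_oo {p : ℕ} [Finite ι] (G : NodalData N A Foo F0 ι)
    (H : NodalRvHyp p G)
    (hIr : ∀ σ ∈ A.inertiaSubgroupIn ℚ, ∀ P, G.r (galF N σ • P) = G.r P)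
    (hdiv : HasPrincipalDivisors Qb (FLb N)) {goo g0 : ℕ}
    (hkoo : RiemannPackage (kRes A) Foo goo) (hk0 : RiemannPackage (kRes A) F0 g0)
    (Poo P0 : Place Qb (FLb N)) (Qoo : Place (kRes A) Foo) (Q0 : Place (kRes A) F0)
    (hPoo : G.r Poo = NPt.oo Qoo) (hP0 : G.r P0 = NPt.zero Q0)
    (hPooI : IsUnrPlace A N Poo)
    (hL : NodalLiftAt G Poo P0 Qoo Q0) :
    ∀ Q : Place (kRes A) Foo, Q ∉ Set.range G.nOo →
      ∃ P : Place Qb (FLb N), G.r P = NPt.oo Q ∧ IsUnrPlace A N P := by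
  intro Q hQ
  by_cases hQne : Q = Qoo
  · subst hQne
    exact ⟨Poo, hPoo, hPooI⟩
  · obtain ⟨P, -, -, hP, hPI, -⟩ :=
      nodalPt_oo_coord G H hIr hdiv hkoo hk0 Poo P0 Qoo Q0 hPoo hP0 hL Q hQ hQne
    exact ⟨P, hP, hPI⟩

/-- **(PT) on `C_0`** : the field `pt_zero` of `NodalLift G`. -/
theorem nodalPt_zero {p : ℕ} [Finite ι] (G : NodalData N A Foo F0 ι)
    (H : NodalRvHyp p G)
    (hIr : ∀ σ ∈ A.inertiaSubgroupIn ℚ, ∀ P, G.r (galF N σ • P) = G.r P)
    (hdiv : HasPrincipalDivisors Qb (FLb N)) {goo g0 : ℕ}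
    (hkoo : RiemannPackage (kRes A) Foo goo) (hk0 : RiemannPackage (kRes A) F0 g0)
    (Poo P0 : Place Qb (FLb N)) (Qoo : Place (kRes A) Foo) (Q0 : Place (kRes A) F0)
    (hPoo : G.r Poo = NPt.oo Qoo) (hP0 : G.r P0 = NPt.zero Q0)
    (hP0I : IsUnrPlace A N P0)
    (hL : NodalLiftAt G Poo P0 Qoo Q0) :
    ∀ Q : Place (kRes A) F0, Q ∉ Set.range G.n0 →
      ∃ P : Place Qb (FLb N), G.r P = NPt.zero Q ∧ IsUnrPlace A N P := by
  intro Q hQ
  by_cases hQne : Q = Q0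
  · subst hQne
    exact ⟨P0, hP0, hP0I⟩
  · obtain ⟨P, -, -, hP, hPI, -⟩ :=
      nodalPt_zero_coord G H hIr hdiv hkoo hk0 Poo P0 Qoo Q0 hPoo hP0 hL Q hQ hQne
    exact ⟨P, hP, hPI⟩

/-- The statement (LIFT) at every pair of inertia-fixed base places over smooth points
(= the field `lift` of `NodalLift G`). -/
def NodalLiftAll (G : NodalData N A Foo F0 ι) : Prop :=
  ∀ (Poo P0 : Place Qb (FLb N)) (Qoo : Place (kRes A) Foo) (Q0 : Place (kRes A) F0),
    G.r Poo = NPt.oo Qoo → G.r P0 = NPt.zero Q0 → IsUnrPlace A N Poo → IsUnrPlace A N P0 →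
      NodalLiftAt G Poo P0 Qoo Q0

/-- **B1-PT.**  The package `NodalLift G` from (LIFT) and ONE pair of inertia-fixed base places
over smooth points of the two components (the cusps `∞` and `0`). -/
theorem nodalLift_of_base {p : ℕ} [Finite ι] (G : NodalData N A Foo F0 ι)
    (H : NodalRvHyp p G) (hgal : NodalGalHyp G)
    (hdiv : HasPrincipalDivisors Qb (FLb N)) {goo g0 : ℕ}
    (hkoo : RiemannPackage (kRes A) Foo goo) (hk0 : RiemannPackage (kRes A) F0 g0)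
    (Poo P0 : Place Qb (FLb N)) (Qoo : Place (kRes A) Foo) (Q0 : Place (kRes A) F0)
    (hPoo : G.r Poo = NPt.oo Qoo) (hP0 : G.r P0 = NPt.zero Q0)
    (hPooI : IsUnrPlace A N Poo) (hP0I : IsUnrPlace A N P0)
    (hL : NodalLiftAll G) : NodalLift G where
  pt_oo := nodalPt_oo G H hgal.inertia_r hdiv hkoo hk0 Poo P0 Qoo Q0 hPoo hP0 hPooI
    (hL Poo P0 Qoo Q0 hPoo hP0 hPooI hP0I)
  pt_zero := nodalPt_zero G H hgal.inertia_r hdiv hkoo hk0 Poo P0 Qoo Q0 hPoo hP0 hP0I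
    (hL Poo P0 Qoo Q0 hPoo hP0 hPooI hP0I)
  lift := hL

/-- **B1-PT**, in the language of `RRHyp` (the fields `rrOo`, `rrZero`, `algClosed`, `pkgL` of
`Fermat.Agent.H72.ORD.NodalSetup`). -/
theorem nodalLift_of_base_rr {p g : ℕ} [Finite ι] [Infinite (kRes A)]
    (G : NodalData N A Foo F0 ι)
    (H : NodalRvHyp p G) (hgal : NodalGalHyp G) (pkgL : RiemannPackage Qb (FLb N) g)
    (rrOo : Fermat.Agent.H58.RRHyp (kRes A) Foo) (rrZero : Fermat.Agent.H58.RRHyp (kRes A) F0)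
    (Poo P0 : Place Qb (FLb N)) (Qoo : Place (kRes A) Foo) (Q0 : Place (kRes A) F0)
    (hPoo : G.r Poo = NPt.oo Qoo) (hP0 : G.r P0 = NPt.zero Q0)
    (hPooI : IsUnrPlace A N Poo) (hP0I : IsUnrPlace A N P0)
    (hL : NodalLiftAll G) : NodalLift G :=
  nodalLift_of_base G H hgal pkgL.principal
    (Fermat.Agent.H27.ESD.riemannPackage_of_rrHyp rrOo)
    (Fermat.Agent.H27.ESD.riemannPackage_of_rrHyp rrZero)
    Poo P0 Qoo Q0 hPoo hP0 hPooI hP0I hL

end Fermat.Agent.H19.ORD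

end
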