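/-
P-ORD (S33), block B1-PT (helper19): THE ANCHORS of (PT) for the nodal model `nmG` of `X₀(M p)`
(helper84, `Fermat.Agent.H84.ORD.NodalModel`).

The cusp `∞` (the `q`-order place `nmPoo`) and the cusp `0` (`nmP0 = W • nmPoo`) are fixed by the
whole Galois group, and
* `nmR_poo`   : the cusp `∞` specialises to a smooth point of `C_∞`;
* `nmR_zero'` : the cusp `0` specialises to a smooth point of `C_0`.

Proof by two explicit functions of the cuspidal chart `B̄(1 / j)` (`u = 1 / j`, `j_p = j(q^p)`):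
* `m = j_p / j ^ p` is integral over `ℤ[1 / j]` ([CUSP-INT], helper99), `red_∞ m = 1` (Frobenius)
  and `m(0) = 0`; so no place of `F_∞` lies over the centre of the cusp `0`;
* `f = 1 - m ^ p + u ^ (p² - 1)` : `red_0 f = 1`, `f(∞) = 0`; so no place of `F_0` lies over the
  centre of the cusp `∞`.
Only `htot : NmTot` is used (every centre lies on a component).

* `nmAnchor_of` : the anchor pair;
* `nmLift_of_liftAll` : `NodalLift (nmG htot)` from its field `lift`
  (`Fermat.Agent.H19.ORD.nodalLift_of_base`).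
-/
import Fermat.Agent.H19.ORD.NmCuspQ
import Fermat.Agent.H19.ORD.CuspIntDefs
import Fermat.Agent.H19.ORD.NodalPt
import Fermat.Agent.H19.FF.UnrCoord
import Fermat.Agent.H84.ORD.NodalSpecFinal
import Fermat.Agent.H85.ORD.GalW
import Fermat.Agent.H60.KLModelCusp
import Fermat.Agent.H10.FF.LCSeries
import Fermat.Agent.H32.IgusaRelations

set_option autoImplicit false
set_option linter.unusedSectionVars false
set_option linter.style.haveILetI false

noncomputable section

open AlgebraicCurve ModularCurve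

namespace Fermat.Agent.H19.ORD

open Fermat.Agent.H72.FF Fermat.Agent.H18.ORD Fermat.Agent.H66 Fermat.Agent.H84.ORD
  Fermat.Agent.H10.FF Fermat.Agent.H27.ESD

section Chart

variable (M p : ℕ) [NeZero M] [NeZero p] (A : ValuationSubring Qb)

theorem coe_nmU : ((nmU M p : FLb (M * p)) : LaurentSeries Qb) = coeffEmb Qb (jq⁻¹) := by
  rw [nmU, map_inv₀]
  push_cast
  congr 1
  show coeffEmb Qb (qExpand ℚ 1 jq) = _
  rw [qExpand_one_apply]

theorem coe_nmMm : ((nmMm M p : FLb (M * p)) : LaurentSeries Qb) =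
    coeffEmb Qb (qExpand ℚ p jq * (jq⁻¹) ^ p) := by
  rw [nmMm, map_mul, map_pow, ← coe_nmU M p]
  push_cast
  rfl

/-- **`m = j_p / j ^ p` lies in the cuspidal chart** `B̄(1 / j)`. -/
theorem nmMm_mem_chart (hCI : CuspIntStatement) (hp : p.Prime) :
    nmMm M p ∈ nmChart (M * p) A (nmU M p) := by
  obtain ⟨P, hPm, hP0⟩ := hCI p hp
  rw [mem_nmChart_iff]
  -- the coefficient map `ℤ[X] → A[u]`
  let φ : Polynomial ℤ →+* ↥(nmPoly (M * p) A (nmU M p)) :=
    Polynomial.eval₂RingHom (Int.castRingHom _) ⟨nmU M p, self_mem_nmPoly A (nmU M p)⟩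
  refine ⟨P.map φ, hPm.map φ, ?_⟩
  rw [Polynomial.eval₂_map]
  -- transport to Laurent series
  have hinj : Function.Injective
      (algebraMap (FLb (M * p)) (LaurentSeries Qb)) := fun x y h => Subtype.ext h
  apply hinj
  rw [map_zero, Polynomial.hom_eval₂]
  have h1 := congrArg (coeffEmb Qb) hP0
  rw [map_zero, coeffEmb, Fermat.Agent.H32.coeffMap_eval_map_evalAt] at h1
  rw [Polynomial.eval_map] at h1
  have e : (algebraMap (FLb (M * p)) (LaurentSeries Qb)).comp
      ((nmPoly (M * p) A (nmU M p)).subtype.comp φ) =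
      Fermat.Agent.H27.evalAt (coeffMap (algebraMap ℚ Qb) jq⁻¹) := by
    apply Polynomial.ringHom_ext
    · intro a
      simp [φ, Fermat.Agent.H27.evalAt]
    · simp only [φ, Fermat.Agent.H27.evalAt, RingHom.comp_apply, Polynomial.coe_eval₂RingHom,
        Polynomial.eval₂_X]
      exact coe_nmU M p
  rw [e]
  have e2 : algebraMap (FLb (M * p)) (LaurentSeries Qb) (nmMm M p) =
      coeffMap (algebraMap ℚ Qb) (qExpand ℚ p jq * (jq⁻¹) ^ p) := coe_nmMm M p
  rw [e2]
  exact h1

end Chart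

section Series

variable (K : Type) [Field K]

theorem nm_order_jqModC : (jqModC K).order = -1 := by
  have h0 : jqModC K ≠ 0 := nm_jqModC_ne_zero K
  apply le_antisymm
  · apply HahnSeries.order_le_of_coeff_ne_zero
    rw [ModularCurve.coeff_jqModC_neg_one]
    exact one_ne_zero
  · rw [HahnSeries.le_order_iff_forall h0]
    intro k hk
    have := ModularCurve.coeff_jqModC_pow_of_lt K (b := 1) (m := k) (by simpa using hk)
    rwa [pow_one] at this

theorem nm_order_jqModC_p (p : ℕ) [NeZero p] :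
    (qExpand K p (jqModC K)).order = -(p : ℤ) := by
  rw [Fermat.Agent.H10.FF.lc_order_qExpand, nm_order_jqModC]
  ring

/-- `j(q^p) - j(q)^p` has no term of degree `≤ -p`. -/
theorem nm_coeff_diff (p : ℕ) [NeZero p] (k : ℤ) (hk : k < 1 - (p : ℤ)) :
    (qExpand K p (jqModC K) - jqModC K ^ p).coeff k = 0 := by
  rw [HahnSeries.coeff_sub]
  rcases lt_or_eq_of_le (show k ≤ -(p : ℤ) by omega) with h | h
  · rw [ModularCurve.coeff_jqModC_pow_of_lt K h, sub_zero]
    by_cases hd : (p : ℤ) ∣ k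
    · obtain ⟨k', rfl⟩ := hd
      rw [qExpand_coeff_mul]
      have hp : (0 : ℤ) < p := by exact_mod_cast Nat.pos_of_ne_zero (NeZero.ne p)
      have hk' : k' < -1 := by
        by_contra hcon
        have : -(p : ℤ) ≤ (p : ℤ) * k' := by nlinarith
        omega
      have := ModularCurve.coeff_jqModC_pow_of_lt K (b := 1) (m := k') (by simpa using hk')
      rwa [pow_one] at this
    · exact qExpand_coeff_of_not_dvd p _ hd
  · subst h
    rw [ModularCurve.coeff_jqModC_pow_self,
      show -(p : ℤ) = (p : ℤ) * (-1) by ring, qExpand_coeff_mul,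
      ModularCurve.coeff_jqModC_neg_one, sub_self]

end Series

section Places

variable (M p : ℕ) [NeZero M] [NeZero p] (hcop : Nat.Coprime M p) (A : ValuationSubring Qb)

/-- the cusp `∞` : the `q`-order place -/
def nmPoo : Place Qb (FLb (M * p)) :=
  Classical.choose (Fermat.Agent.H60.modelCuspPlace (M * p) Qb)

theorem nmPoo_ord (f : FLb (M * p)) (hf : f ≠ 0) :
    (nmPoo M p).ord f = (f : LaurentSeries Qb).order :=
  Classical.choose_spec (Fermat.Agent.H60.modelCuspPlace (M * p) Qb) f hf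

/-- the cusp `0` : the image of the cusp `∞` under `W` -/
def nmP0 : Place Qb (FLb (M * p)) := (nmW M p hcop) • nmPoo M p

theorem nmPoo_ord_j : (nmPoo M p).ord (nmJ (M * p)) = -1 := by
  rw [nmPoo_ord M p _ (nmJ_ne_zero (M * p)), coe_nmJ, nm_order_jqModC]

theorem nmPoo_ord_jp : (nmPoo M p).ord (nmJp M p) = -(p : ℤ) := by
  rw [nmPoo_ord M p _ (nmJp_ne_zero M p), coe_nmJp, nm_order_jqModC_p]

theorem nmPoo_ord_u : (nmPoo M p).ord (nmU M p) = 1 := by
  rw [nmU, Place.ord_inv, nmPoo_ord_j]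
  rfl

theorem nmP0_ord (f : FLb (M * p)) :
    (nmP0 M p hcop).ord f = (nmPoo M p).ord (nmW M p hcop f) := by
  have h := Place.ord_smul (nmW M p hcop) (nmPoo M p) (nmW M p hcop f)
  rw [nmW_invol] at h
  exact h

theorem nm_not_mem_of_ord_neg {N : ℕ} (P : Place Qb (FLb N)) {f : FLb N} (h : P.ord f < 0) :
    ¬ nmv P f ≤ 1 := by
  intro hle
  have hmem : f ∈ P.toValuationSubring := (ValuationSubring.valuation_le_one_iff _ _).mp hle
  rcases (Fermat.Agent.H23.mem_iff_ord P).mp hmem with h0 | h0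
  · rw [h0, Place.ord_zero] at h
    exact lt_irrefl _ h
  · omega

theorem nmY_poo : nmY A (nmPoo M p) = nmU M p := by
  classical
  have h : nmJ (M * p) ∉ nmInt A (nmPoo M p) := by
    rintro ⟨c, -, hc⟩
    exact nm_not_mem_of_ord_neg (nmPoo M p) (by rw [nmPoo_ord_j]; norm_num)
      (nmv_le_one_of_hasValue (nmPoo M p) hc)
  rw [nmY, if_neg h]
  rfl

theorem nmP0_hasValue_iff (f : FLb (M * p)) (c : Qb) :
    HasValue (nmP0 M p hcop) f c ↔ HasValue (nmPoo M p) (nmW M p hcop f) c := by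
  unfold HasValue
  rw [nmP0_ord, map_sub, AlgEquiv.commutes]
  constructor
  · rintro (h | h)
    · left
      rw [h, AlgEquiv.commutes]
    · exact Or.inr h
  · rintro (h | h)
    · left
      have := congrArg (nmW M p hcop) h
      rwa [nmW_invol, AlgEquiv.commutes] at this
    · exact Or.inr h

theorem nmY_zero : nmY A (nmP0 M p hcop) = nmU M p := by
  classical
  have h : nmJ (M * p) ∉ nmInt A (nmP0 M p hcop) := by
    rintro ⟨c, -, hc⟩
    rw [nmP0_hasValue_iff, nmW_j] at hc
    have hp : (0 : ℤ) < p := by exact_mod_cast Nat.pos_of_ne_zero (NeZero.ne p)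
    exact nm_not_mem_of_ord_neg (nmPoo M p) (by rw [nmPoo_ord_jp]; omega)
      (nmv_le_one_of_hasValue (nmPoo M p) hc)
  rw [nmY, if_neg h]
  rfl

/-! ### Values -/

theorem nm_hasValue_one {N : ℕ} (P : Place Qb (FLb N)) : HasValue P (1 : FLb N) 1 := by
  have := nm_hasValue_const P (1 : Qb)
  rwa [map_one] at this

theorem nm_hasValue_pow_of {N : ℕ} (P : Place Qb (FLb N)) {f : FLb N} {c : Qb}
    (h : HasValue P f c) (n : ℕ) : HasValue P (f ^ n) (c ^ n) := by
  induction n with
  | zero =>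
    rw [pow_zero, pow_zero]
    exact nm_hasValue_one P
  | succ n ih =>
    rw [pow_succ, pow_succ]
    exact nm_hasValue_mul P ih h

theorem nmPoo_value_u : HasValue (nmPoo M p) (nmU M p) 0 :=
  nm_hasValue_zero_inv (nmPoo M p)
    (nm_not_mem_of_ord_neg (nmPoo M p) (by rw [nmPoo_ord_j]; norm_num))

/-- `m(∞) = 1` -/
theorem nmPoo_value_m : HasValue (nmPoo M p) (nmMm M p) 1 := by
  rw [nm_hasValue_iff, map_one, nm_mem_nonunits_iff_ord]
  by_cases hD : nmJp M p - nmJ (M * p) ^ p = 0
  · left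
    have hj := nmJ_ne_zero (M * p)
    rw [nmMm, nmU, sub_eq_zero.mp hD, inv_pow, mul_inv_cancel₀ (pow_ne_zero _ hj), sub_self]
  · right
    have hj := nmJ_ne_zero (M * p)
    have e : nmMm M p - 1 = (nmJp M p - nmJ (M * p) ^ p) * nmU M p ^ p := by
      rw [nmMm, nmU, sub_mul, inv_pow, mul_inv_cancel₀ (pow_ne_zero _ hj)]
    have hu : nmU M p ≠ 0 := inv_ne_zero hj
    rw [e, Place.ord_mul _ hD (pow_ne_zero _ hu), nb_ord_pow, nmPoo_ord_u,
      nmPoo_ord M p _ hD]
    have hD' : ((nmJp M p - nmJ (M * p) ^ p : FLb (M * p)) : LaurentSeries Qb) ≠ 0 := by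
      intro h
      exact hD (Subtype.ext h)
    have hord : 1 - (p : ℤ) ≤
        ((nmJp M p - nmJ (M * p) ^ p : FLb (M * p)) : LaurentSeries Qb).order := by
      rw [HahnSeries.le_order_iff_forall hD']
      intro k hk
      have := nm_coeff_diff Qb p k hk
      rw [← coe_nmJp M p, ← coe_nmJ (M * p)] at this
      exact_mod_cast this
    omega

/-- `f(∞) = 0` for `f = 1 - m ^ p + u ^ (p² - 1)` -/
theorem nmPoo_value_foo (hp : p.Prime) : HasValue (nmPoo M p) (nmFoo M p) 0 := by
  have h1 := nm_hasValue_pow_of (nmPoo M p) (nmPoo_value_m M p) p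
  have h2 := nm_hasValue_pow_of (nmPoo M p) (nmPoo_value_u M p) (p * p - 1)
  have h3 := nm_hasValue_add (nmPoo M p)
    (nm_hasValue_sub (nmPoo M p) (nm_hasValue_one (nmPoo M p)) h1) h2
  have hpp : p * p - 1 ≠ 0 := by
    have := hp.two_le
    have : 4 ≤ p * p := by nlinarith
    omega
  rw [one_pow, sub_self, zero_pow hpp, add_zero] at h3
  exact h3

/-- `m(0) = 0` -/
theorem nmP0_value_m (hp : p.Prime) : HasValue (nmP0 M p hcop) (nmMm M p) 0 := by
  rw [nmP0_hasValue_iff, nm_hasValue_iff, map_zero, sub_zero, nm_mem_nonunits_iff_ord, nmW_m]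
  right
  have hj := nmJ_ne_zero (M * p)
  have hjp : (nmJp M p)⁻¹ ≠ 0 := inv_ne_zero (nmJp_ne_zero M p)
  rw [Place.ord_mul _ hj (pow_ne_zero _ hjp), nb_ord_pow, Place.ord_inv, nmPoo_ord_j,
    nmPoo_ord_jp]
  have := hp.two_le
  have h4 : (4 : ℤ) ≤ (p : ℤ) * (p : ℤ) := by
    have : (2 : ℤ) ≤ (p : ℤ) := by exact_mod_cast this
    nlinarith
  linarith

/-! ### Galois -/

/-- the cusp `∞` is fixed by the whole Galois group -/
theorem nmPoo_fixed (σ : GQ) : galF (M * p) σ • nmPoo M p = nmPoo M p := by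
  have hmem : ∀ f : FLb (M * p), f ∈ (nmPoo M p).toValuationSubring ↔
      f = 0 ∨ 0 ≤ (f : LaurentSeries Qb).order := by
    intro f
    rw [Fermat.Agent.H23.mem_iff_ord]
    constructor
    · rintro (h | h)
      · exact Or.inl h
      · by_cases hf : f = 0
        · exact Or.inl hf
        · right; rw [← nmPoo_ord M p f hf]; exact h
    · rintro (h | h)
      · exact Or.inl h
      · by_cases hf : f = 0
        · exact Or.inl hf
        · right; rw [nmPoo_ord M p f hf]; exact h
  apply Place.ext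
  ext f
  rw [SemilinearAut.smul_toValuationSubring,
    ValuationSubring.mem_pointwise_smul_iff_inv_smul_mem, hmem, hmem]
  have h1 : (galF (M * p) σ)⁻¹ = galF (M * p) σ⁻¹ :=
    (map_inv (arithmeticGalois (modularFunctionFieldFull (M * p))) σ).symm
  rw [h1, Fermat.Agent.H19.FF.ff_order_galF]
  constructor
  · rintro (h | h)
    · left
      have := congrArg (fun y => galF (M * p) σ • y) h
      simpa using this
    · exact Or.inr h
  · rintro (h | h)
    · left; rw [h, smul_zero]
    · exact Or.inr h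

/-- the cusp `0` is fixed by the whole Galois group -/
theorem nmP0_fixed (σ : GQ) : galF (M * p) σ • nmP0 M p hcop = nmP0 M p hcop := by
  have hW := (nmW_spec M p hcop).1
  have hcomm := Fermat.Agent.H85.ORD.gw_comm_of_perm (nmW M p hcop) (fun d hd0 hd => by
    obtain ⟨d', hd0', hd', h1, -⟩ := hW d hd0 hd
    exact ⟨d', hd0', hd', h1⟩) σ
  refine Fermat.Agent.H23.place_ext_of_ord _ _ ?_
  intro f hf
  obtain ⟨g, rfl⟩ : ∃ g, f = galF (M * p) σ • g := ⟨(galF (M * p) σ)⁻¹ • f, (smul_inv_smul _ _).symm⟩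
  rw [SemilinearAut.ord_smul, nmP0_ord] at hf
  rw [nmP0_ord, hcomm, ← nmPoo_fixed M p σ, SemilinearAut.ord_smul]
  exact hf

/-! ### The anchors -/

theorem nm_one_not_mem_nonunits {K F : Type*} [Field K] [Field F] [Algebra K F]
    (Q : Place K F) : (1 : F) ∉ Q.toValuationSubring.nonunits := by
  intro h
  rw [ValuationSubring.mem_nonunits_iff, map_one] at h
  exact lt_irrefl _ h

theorem nmFoo_mem_chart (hCI : CuspIntStatement) (hp : p.Prime) :
    nmFoo M p ∈ nmChart (M * p) A (nmU M p) := by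
  have hm := nmMm_mem_chart M p A hCI hp
  have hu := self_mem_nmChart A (nmU M p)
  exact add_mem (sub_mem (one_mem _) (pow_mem hm _)) (pow_mem hu _)

/-- the centre of the cusp `∞` does not lie on `C_0` -/
theorem nmPoo_not_onZero (hCI : CuspIntStatement) (hp : p.Prime) (hA : A.LiesOverPrime p) :
    ¬ NmOnZero M p hcop A (nmCentre A (nmPoo M p)) := by
  rintro ⟨Q, hQ⟩
  obtain ⟨hmem, hred⟩ := nmFoo_red0 M p hcop A hp hA
  have hc : nmFoo M p ∈ nmCentre A (nmPoo M p) := by
    refine mem_nmCentre_of_value (nmPoo M p) ?_ (c := 0) ?_ (nmPoo_value_foo M p hp)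
    · rw [nmY_poo]
      exact nmFoo_mem_chart M p A hCI hp
    · rw [ValuationSubring.mem_nonunits_iff, map_zero]
      exact zero_lt_one
  have h := hQ (nmFoo M p) hc hmem
  rw [hred] at h
  exact nm_one_not_mem_nonunits Q h

/-- the centre of the cusp `0` does not lie on `C_∞` -/
theorem nmP0_not_onOo (hCI : CuspIntStatement) (hp : p.Prime) (hA : A.LiesOverPrime p) :
    ¬ NmOnOo M p A (nmCentre A (nmP0 M p hcop)) := by
  rintro ⟨Q, hQ⟩
  obtain ⟨hmem, hred⟩ := nmMm_redOo M p A hp hA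
  have hc : nmMm M p ∈ nmCentre A (nmP0 M p hcop) := by
    refine mem_nmCentre_of_value (nmP0 M p hcop) ?_ (c := 0) ?_ (nmP0_value_m M p hcop hp)
    · rw [nmY_zero]
      exact nmMm_mem_chart M p A hCI hp
    · rw [ValuationSubring.mem_nonunits_iff, map_zero]
      exact zero_lt_one
  have h := hQ (nmMm M p) hc hmem
  rw [hred] at h
  exact nm_one_not_mem_nonunits Q h

variable {M p hcop A}

/-- **the cusp `∞` specialises to a smooth point of `C_∞`** -/
theorem nmR_poo (hCI : CuspIntStatement) (hp : p.Prime) (hA : A.LiesOverPrime p)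
    (htot : NmTot M p hcop A) :
    ∃ Q, nmR htot (nmPoo M p) = NPt.oo Q := by
  classical
  have h0 := nmPoo_not_onZero M p hcop A hCI hp hA
  have h1 : ¬ NmIsNode M p hcop A (nmCentre A (nmPoo M p)) := fun h => h0 h.2.2
  have h2 : NmOnOo M p A (nmCentre A (nmPoo M p)) := (htot (nmPoo M p)).resolve_right h0
  refine ⟨Classical.choose h2, ?_⟩
  rw [nmR, dif_neg h1, dif_pos h2]

/-- **the cusp `0` specialises to a smooth point of `C_0`** -/
theorem nmR_zero' (hCI : CuspIntStatement) (hp : p.Prime) (hA : A.LiesOverPrime p)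
    (htot : NmTot M p hcop A) :
    ∃ Q, nmR htot (nmP0 M p hcop) = NPt.zero Q := by
  classical
  have h0 := nmP0_not_onOo M p hcop A hCI hp hA
  have h1 : ¬ NmIsNode M p hcop A (nmCentre A (nmP0 M p hcop)) := fun h => h0 h.2.1
  refine ⟨Classical.choose ((htot (nmP0 M p hcop)).resolve_left h0), ?_⟩
  rw [nmR, dif_neg h1, dif_neg h0]

/-- **B1-PT, the anchors** : the cusps `∞` and `0` are fixed by the Galois group and specialise
to smooth points of `C_∞`, resp. `C_0`. -/
theorem nmAnchor_of (hCI : CuspIntStatement) (hp : p.Prime) (hA : A.LiesOverPrime p)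
    (htot : NmTot M p hcop A) :
    ∃ (Poo P0 : Place Qb (FLb (M * p))) (Qoo Q0 : Place (kRes A) (NmF (M * p) A)),
      (nmG htot).r Poo = NPt.oo Qoo ∧ (nmG htot).r P0 = NPt.zero Q0 ∧
      (∀ σ : GQ, galF (M * p) σ • Poo = Poo) ∧ (∀ σ : GQ, galF (M * p) σ • P0 = P0) := by
  obtain ⟨Qoo, hQoo⟩ := nmR_poo hCI hp hA htot
  obtain ⟨Q0, hQ0⟩ := nmR_zero' hCI hp hA htot
  exact ⟨nmPoo M p, nmP0 M p hcop, Qoo, Q0, hQoo, hQ0, nmPoo_fixed M p, nmP0_fixed M p hcop⟩

end Places

/-! ### (PT) for the nodal model -/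

section Final

variable {M p : ℕ} [NeZero M] [NeZero p] {A : ValuationSubring Qb}

/-- **B1-PT for `nmG`** : the package `NodalLift (nmG htot)` from its field `lift`. -/
theorem nmLift_of_liftAll (hCI : CuspIntStatement) (h : NmSetup M p A)
    (htot : NmTot M p h.cop A) (H : NodalRvHyp p (nmG htot)) (hgal : NodalGalHyp (nmG htot))
    [Finite (NmNode M p h.cop A)] (hdiv : HasPrincipalDivisors Qb (FLb (M * p))) {g' : ℕ}
    (pk : RiemannPackage (kRes A) (NmF (M * p) A) g')
    (hL : NodalLiftAll (nmG htot)) : NodalLift (nmG htot) := by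
  obtain ⟨Poo, P0, Qoo, Q0, hPoo, hP0, hPooI, hP0I⟩ :=
    nmAnchor_of (hcop := h.cop) hCI h.prime h.liesOver htot
  exact nodalLift_of_base (nmG htot) H hgal hdiv pk pk Poo P0 Qoo Q0 hPoo hP0
    (fun σ _ => hPooI σ) (fun σ _ => hP0I σ) hL

/-- **B1-PT for `nmG`**, statement form : `NmLiftStatement` from the field `lift`. -/
theorem nmLiftStatement_of (hCI : CuspIntStatement) (hR : NmRvHypStatement M p)
    (hG : NmGalHypStatement M p) (hC : NmNodeCountStatement M p)
    (hL : ∀ (A : ValuationSubring Qb) (h : NmSetup M p A) (htot : NmTot M p h.cop A),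
      NodalLiftAll (nmG htot)) : NmLiftStatement M p := by
  intro A h htot
  obtain ⟨hfin, -, g, g', pkL, pk, -⟩ := hC A h
  haveI := hfin
  exact nmLift_of_liftAll hCI h htot (hR A h htot) (hG A h htot) pkL.principal pk (hL A h htot)

end Final

end Fermat.Agent.H19.ORD

end
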