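/-
P-ORD (S33), block B1-PT (helper19): the anchors and (PT) for the nodal model `nmG`,
UNCONDITIONAL form ([CUSP-INT] = `Fermat.Agent.H99.ORD.cuspInt`, helper99).

* `nmAnchor` : the cusps `∞`, `0` are Galois-fixed places specialising to smooth points of
  `C_∞`, resp. `C_0` (for every `htot : NmTot`);
* `nmLift_of_lift` : `NodalLift (nmG htot)` from its field `lift`;
* `nmLiftStatement_of_lift` : `NmLiftStatement M p` from `NmRvHypStatement`, `NmGalHypStatement`,
  `NmNodeCountStatement` and the field `lift`.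
-/
import Fermat.Agent.H19.ORD.NmAnchor
import Fermat.Agent.H99.ORD.CuspInt

set_option autoImplicit false
set_option linter.unusedSectionVars false

noncomputable section

open AlgebraicCurve ModularCurve

namespace Fermat.Agent.H19.ORD

open Fermat.Agent.H72.FF Fermat.Agent.H18.ORD Fermat.Agent.H66 Fermat.Agent.H84.ORD
  Fermat.Agent.H10.FF Fermat.Agent.H27.ESD

variable {M p : ℕ} [NeZero M] [NeZero p] {A : ValuationSubring Qb}

/-- **B1-PT, the anchors** (unconditional). -/
theorem nmAnchor {hcop : Nat.Coprime M p} (hp : p.Prime) (hA : A.LiesOverPrime p)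
    (htot : NmTot M p hcop A) :
    ∃ (Poo P0 : Place Qb (FLb (M * p))) (Qoo Q0 : Place (kRes A) (NmF (M * p) A)),
      (nmG htot).r Poo = NPt.oo Qoo ∧ (nmG htot).r P0 = NPt.zero Q0 ∧
      (∀ σ : GQ, galF (M * p) σ • Poo = Poo) ∧ (∀ σ : GQ, galF (M * p) σ • P0 = P0) :=
  nmAnchor_of Fermat.Agent.H99.ORD.cuspInt hp hA htot

/-- **B1-PT for `nmG`** (unconditional) : `NodalLift (nmG htot)` from its field `lift`. -/
theorem nmLift_of_lift (h : NmSetup M p A)
    (htot : NmTot M p h.cop A) (H : NodalRvHyp p (nmG htot)) (hgal : NodalGalHyp (nmG htot))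
    [Finite (NmNode M p h.cop A)] (hdiv : HasPrincipalDivisors Qb (FLb (M * p))) {g' : ℕ}
    (pk : RiemannPackage (kRes A) (NmF (M * p) A) g')
    (hL : NodalLiftAll (nmG htot)) : NodalLift (nmG htot) :=
  nmLift_of_liftAll Fermat.Agent.H99.ORD.cuspInt h htot H hgal hdiv pk hL

/-- **B1-PT for `nmG`**, statement form (unconditional). -/
theorem nmLiftStatement_of_lift (hR : NmRvHypStatement M p)
    (hG : NmGalHypStatement M p) (hC : NmNodeCountStatement M p)
    (hL : ∀ (A : ValuationSubring Qb) (h : NmSetup M p A) (htot : NmTot M p h.cop A),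
      NodalLiftAll (nmG htot)) : NmLiftStatement M p :=
  nmLiftStatement_of Fermat.Agent.H99.ORD.cuspInt hR hG hC hL

end Fermat.Agent.H19.ORD

end
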