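/-
P-ORD (S33), block B1, input (8) [CUSPS] of helper84's master assembly
(`Fermat.Agent.H84.ORD.nmBlocks_of_inputs`) : the cusp pair in the inertia-fixed shape

  `∀ A h htot, ∃ Poo P0 Qoo Q0, (nmG htot).r Poo = NPt.oo Qoo ∧ (nmG htot).r P0 = NPt.zero Q0 ∧
     IsUnrPlace A (M * p) Poo ∧ IsUnrPlace A (M * p) P0`.

UNCONDITIONAL (from `nmAnchor`; the cusps are even fixed by all of `G_ℚ`).
-/
import Fermat.Agent.H19.ORD.NmAnchorFinal

set_option autoImplicit false
set_option linter.unusedSectionVars false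

noncomputable section

open AlgebraicCurve ModularCurve

namespace Fermat.Agent.H19.ORD

open Fermat.Agent.H72.FF Fermat.Agent.H18.ORD Fermat.Agent.H66 Fermat.Agent.H84.ORD
  Fermat.Agent.H10.FF Fermat.Agent.H27.ESD

/-- **[CUSPS]** one model instance : an inertia-fixed pair over smooth points of `C_∞`, `C_0`. -/
theorem nmCuspPair_at {M p : ℕ} [NeZero M] [NeZero p] {A : ValuationSubring Qb}
    (h : NmSetup M p A) (htot : NmTot M p h.cop A) :
    ∃ (Poo P0 : Place Qb (FLb (M * p))) (Qoo Q0 : Place (kRes A) (NmF (M * p) A)),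
      (nmG htot).r Poo = NPt.oo Qoo ∧ (nmG htot).r P0 = NPt.zero Q0 ∧
      IsUnrPlace A (M * p) Poo ∧ IsUnrPlace A (M * p) P0 := by
  obtain ⟨Poo, P0, Qoo, Q0, hPoo, hP0, hPooI, hP0I⟩ :=
    nmAnchor (hcop := h.cop) h.prime h.liesOver htot
  exact ⟨Poo, P0, Qoo, Q0, hPoo, hP0, fun σ _ => hPooI σ, fun σ _ => hP0I σ⟩

/-- **[CUSPS]**, statement form (the body of helper84's `NmCuspPairStatement M p`). -/
theorem nmCuspPair (M p : ℕ) [NeZero M] [NeZero p] :
    ∀ (A : ValuationSubring Qb) (h : NmSetup M p A) (htot : NmTot M p h.cop A),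
      ∃ (Poo P0 : Place Qb (FLb (M * p))) (Qoo Q0 : Place (kRes A) (NmF (M * p) A)),
        (nmG htot).r Poo = NPt.oo Qoo ∧ (nmG htot).r P0 = NPt.zero Q0 ∧
        IsUnrPlace A (M * p) Poo ∧ IsUnrPlace A (M * p) P0 :=
  fun _ h htot => nmCuspPair_at h htot

end Fermat.Agent.H19.ORD

end
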